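/-
S55 / layer G / block REC / adapter TOW, leaf RAM (helper241):
`ram p : RamSpec p`, the auxiliary level `M = L · L(r, p^k)` with `r ≡ 1 mod p^k`, `r ∉ S`.

`L(r, n) = auxField63 r n ⊂ ℚ(ζ_r)` (helper63, `G/Rec/H63AuxField.lean`) is unramified outside
`r` and the inertia group `I_A` of every place `A` of `ℚ̄` over `r` surjects onto
`Gal(L(r, n)/ℚ) = (ℤ/r)ˣ ⧸ n-th powers`.  Since `L` is unramified at `r`, `I_A ≤ Gal(ℚ̄/L)`, so
`Gal(M/L) ≃ Gal(L(r, n)/ℚ)` is the image of `I_A`, and it fixes the prime of `M` below `A`.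
-/
import Fermat.Agent.S55.G.Rec.Tow.Spec
import Fermat.Agent.S55.G.Rec.H63AuxField
import Fermat.Agent.S54.FrobExists
import Fermat.Agent.A2.IF.H9.InertiaClosed

set_option autoImplicit false
set_option linter.unusedSectionVars false
set_option linter.style.haveILetI false

open CategoryTheory
open scoped NumberField Pointwise

noncomputable section

namespace Fermat.Agent.S55.G.Rec.TOW.H241

open Fermat.Agent.S55 Fermat.Agent.S55.Tow Fermat.Agent.S55.E1.H594 Fermat.Agent.S55.G.Rec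
open IsDedekindDomain

/-! ## The prime of a number field inside `ℚ̄` below a place of `ℚ̄` -/

section Below

variable (F : IntermediateField ℚ Qbar) [NumberField F]

/-- The integers of `F` lie in every valuation subring of `ℚ̄`. -/
lemma int_mem (A : ValuationSubring Qbar) (b : 𝓞 F) : ((b : F) : Qbar) ∈ A := by
  have hb : IsIntegral ℤ (b : F) := NumberField.RingOfIntegers.isIntegral_coe b
  exact Fermat.Agent.S54.isIntegral_mem_valuationSubring A (hb.map (algebraMap F Qbar).toIntAlgHom)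

/-- The ring homomorphism `𝓞 F → A`. -/
def toVal (A : ValuationSubring Qbar) : 𝓞 F →+* A :=
  ((algebraMap F Qbar).comp (algebraMap (𝓞 F) F)).codRestrict A.toSubring
    (fun b => int_mem F A b)

/-- The prime of `𝓞 F` below the valuation subring `A` of `ℚ̄` over `r`. -/
def primeBelow (A : ValuationSubring Qbar) (r : ℕ) (hr : r.Prime) (hA : A.LiesOverPrime r) :
    HeightOneSpectrum (𝓞 F) where
  asIdeal := (IsLocalRing.maximalIdeal A).comap (toVal F A)
  isPrime := inferInstance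
  ne_bot := by
    intro h
    have h1 : ((r : ℕ) : 𝓞 F) ∈ (IsLocalRing.maximalIdeal A).comap (toVal F A) := by
      rw [Ideal.mem_comap]
      have h2 : ((toVal F A ((r : ℕ) : 𝓞 F) : A) : Qbar) = (r : Qbar) := by
        show algebraMap F Qbar (algebraMap (𝓞 F) F ((r : ℕ) : 𝓞 F)) = _
        rw [map_natCast, map_natCast]
      have h3 := (ValuationSubring.mem_nonunits_iff_exists_mem_maximalIdeal (A := A)
        (a := (r : Qbar))).1 hA
      obtain ⟨hmem, hmax⟩ := h3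
      have h4 : toVal F A ((r : ℕ) : 𝓞 F) = ⟨(r : Qbar), hmem⟩ := Subtype.ext h2
      rw [h4]
      exact hmax
    rw [h, Ideal.mem_bot] at h1
    exact hr.ne_zero (Nat.cast_eq_zero.1 h1)

lemma mem_primeBelow {A : ValuationSubring Qbar} {r : ℕ} {hr : r.Prime}
    {hA : A.LiesOverPrime r} {b : 𝓞 F} :
    b ∈ (primeBelow F A r hr hA).asIdeal ↔ ((b : F) : Qbar) ∈ A.nonunits := by
  rw [ValuationSubring.mem_nonunits_iff_exists_mem_maximalIdeal]
  constructor
  · intro h
    exact ⟨int_mem F A b, h⟩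
  · rintro ⟨_, h⟩
    exact h

lemma natCast_mem_primeBelow (A : ValuationSubring Qbar) (r : ℕ) (hr : r.Prime)
    (hA : A.LiesOverPrime r) : ((r : ℕ) : 𝓞 F) ∈ (primeBelow F A r hr hA).asIdeal := by
  rw [mem_primeBelow]
  have h2 : ((((r : ℕ) : 𝓞 F) : F) : Qbar) = (r : Qbar) := by
    show algebraMap F Qbar (algebraMap (𝓞 F) F ((r : ℕ) : 𝓞 F)) = _
    rw [map_natCast, map_natCast]
  rw [h2]
  exact hA

end Below

/-! ## The auxiliary level -/

section Aux

variable {S : Finset Nat.Primes} (L : Level S) (r : Nat.Primes) (n : ℕ)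

local instance factPrime : Fact (Nat.Prime (r : ℕ)) := ⟨r.2⟩

/-- The auxiliary level `M = L · L(r, n)`. -/
def auxLevel : Level (insert r S) where
  F := L.F ⊔ auxField63 (r : ℕ) n
  unram := (L.unram.mono (Finset.subset_insert r S)).sup
    (auxField63_isUnramifiedOutside (r : ℕ) n (insert r S) (Finset.mem_insert_self r S))
  normalU := by
    rw [IntermediateField.fixingSubgroup_sup]
    haveI := L.normalU
    haveI : ((auxField63 (r : ℕ) n).fixingSubgroup).Normal := by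
      rw [fixingSubgroup_auxField63]
      infer_instance
    infer_instance

lemma mem_auxLevel_U (g : GQ) :
    g ∈ (auxLevel L r n).U ↔ g ∈ L.U ∧ auxChar63 (r : ℕ) n g = 1 := by
  change g ∈ (L.F ⊔ auxField63 (r : ℕ) n).fixingSubgroup ↔ _
  rw [IntermediateField.fixingSubgroup_sup, Subgroup.mem_inf, fixingSubgroup_auxField63,
    MonoidHom.mem_ker]
  rfl

lemma le_auxLevel : Level.ofLE (Finset.subset_insert r S) L ≤ auxLevel L r n :=
  (le_sup_left : L.F ≤ L.F ⊔ auxField63 (r : ℕ) n)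

/-- The character `Gal(M/ℚ) → (ℤ/r)ˣ ⧸ n-th powers`. -/
def galChar : (auxLevel L r n).Gal →* (ZMod (r : ℕ))ˣ ⧸ powSubgroup63 (r : ℕ) n :=
  QuotientGroup.lift _ (auxChar63 (r : ℕ) n) (fun g hg => ((mem_auxLevel_U L r n g).1 hg).2)

lemma galChar_mk (g : GQ) :
    galChar L r n (QuotientGroup.mk g : (auxLevel L r n).Gal) = auxChar63 (r : ℕ) n g := rfl

lemma mk_mem_relGal_iff (g : GQ) :
    (QuotientGroup.mk g : (auxLevel L r n).Gal) ∈ Level.relGal (le_auxLevel L r n) ↔ g ∈ L.U := by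
  change Level.proj (le_auxLevel L r n) (QuotientGroup.mk g) = 1 ↔ _
  exact QuotientGroup.eq_one_iff g

/-- Inertia at `r` lies in `Gal(ℚ̄/L)`, as `r ∉ S`. -/
lemma inertia_le_U (hr : r ∉ S) (A : ValuationSubring Qbar) (hA : A.LiesOverPrime (r : ℕ)) :
    A.inertiaSubgroupIn ℚ ≤ L.U :=
  L.unram.2 r hr A hA

/-- Every element of `Gal(M/L)` is the class of an inertia element at `A`. -/
lemma exists_inertia_eq (hr : r ∉ S) (A : ValuationSubring Qbar)
    (hA : A.LiesOverPrime (r : ℕ)) (z : (auxLevel L r n).Gal)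
    (hz : z ∈ Level.relGal (le_auxLevel L r n)) :
    ∃ σ ∈ A.inertiaSubgroupIn ℚ, (QuotientGroup.mk σ : (auxLevel L r n).Gal) = z := by
  obtain ⟨g, rfl⟩ := QuotientGroup.mk_surjective z
  have hg : g ∈ L.U := (mk_mem_relGal_iff L r n g).1 hz
  obtain ⟨σ, hσ, hσg⟩ := exists_inertia_auxChar_eq63 (r : ℕ) n A hA g
  refine ⟨σ, hσ, ?_⟩
  rw [QuotientGroup.eq, mem_auxLevel_U]
  refine ⟨L.U.mul_mem (L.U.inv_mem (inertia_le_U L r hr A hA hσ)) hg, ?_⟩
  rw [map_mul, map_inv, hσg, inv_mul_cancel]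

/-- `|Gal(M/L)| = n` if `n ∣ r - 1` and `r ∉ S`. -/
theorem card_relGal (hr : r ∉ S) (hn : n ∣ (r : ℕ) - 1) :
    Nat.card (Level.relGal (le_auxLevel L r n)) = n := by
  obtain ⟨A, hA⟩ := Fermat.Agent.S54.exists_valuationSubring_liesOver (r : ℕ) r.2
  refine Eq.trans (Nat.card_congr (Equiv.ofBijective
    (fun z : Level.relGal (le_auxLevel L r n) => galChar L r n z.1) ⟨?_, ?_⟩))
    (card_quotient_powSubgroup63 (r : ℕ) n hn)
  · rintro ⟨z, hz⟩ ⟨z', hz'⟩ h
    apply Subtype.ext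
    obtain ⟨g, rfl⟩ := QuotientGroup.mk_surjective z
    obtain ⟨g', rfl⟩ := QuotientGroup.mk_surjective z'
    have hg : g ∈ L.U := (mk_mem_relGal_iff L r n g).1 hz
    have hg' : g' ∈ L.U := (mk_mem_relGal_iff L r n g').1 hz'
    have h' : auxChar63 (r : ℕ) n g = auxChar63 (r : ℕ) n g' := h
    change (QuotientGroup.mk g : (auxLevel L r n).Gal) = QuotientGroup.mk g'
    rw [QuotientGroup.eq, mem_auxLevel_U]
    refine ⟨L.U.mul_mem (L.U.inv_mem hg) hg', ?_⟩
    rw [map_mul, map_inv, h', inv_mul_cancel]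
  · intro q
    obtain ⟨g, rfl⟩ := auxChar63_surjective (r : ℕ) n q
    obtain ⟨σ, hσ, hσg⟩ := exists_inertia_auxChar_eq63 (r : ℕ) n A hA g
    exact ⟨⟨QuotientGroup.mk σ, (mk_mem_relGal_iff L r n σ).2 (inertia_le_U L r hr A hA hσ)⟩,
      hσg⟩

/-- An element of the decomposition group preserves the non-units of `A`. -/
lemma apply_mem_nonunits_iff {A : ValuationSubring Qbar} {σ : GQ} (hσ : σ • A = A) (y : Qbar) :
    σ y ∈ A.nonunits ↔ y ∈ A.nonunits := by
  have hσ' : σ⁻¹ • A = A := by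
    conv_lhs => rw [← hσ]
    rw [inv_smul_smul]
  have hiff : ∀ t : Qbar, σ t ∈ A ↔ t ∈ A := by
    intro t
    constructor
    · intro h
      have := Fermat.Agent.A2.IF.H9.apply_mem_of_smul_eq hσ' h
      rwa [show σ⁻¹ (σ t) = t from σ.symm_apply_apply t] at this
    · intro h
      exact Fermat.Agent.A2.IF.H9.apply_mem_of_smul_eq hσ h
  rw [ValuationSubring.mem_nonunits_iff_or, ValuationSubring.mem_nonunits_iff_or, ← map_inv₀,
    hiff, EmbeddingLike.map_eq_zero_iff]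

/-- Inertia elements at `A` fix the prime of `M` below `A`. -/
lemma primeSMul_primeBelow (M : Level (insert r S)) (A : ValuationSubring Qbar)
    (hA : A.LiesOverPrime (r : ℕ)) (σ : GQ) (hσ : σ ∈ A.inertiaSubgroupIn ℚ) :
    G.primeSMul M.Gal (QuotientGroup.mk σ : M.Gal) (primeBelow M.F A (r : ℕ) r.2 hA) =
      primeBelow M.F A (r : ℕ) r.2 hA := by
  obtain ⟨hD, -⟩ := (Fermat.Agent.A2.IF.H9.mem_inertiaSubgroupIn_iff_exists A σ).1 hσ
  have hσA : σ • A = A := MulAction.mem_stabilizer_iff.1 hD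
  have hσA' : σ⁻¹ • A = A := by
    conv_lhs => rw [← hσA]
    rw [inv_smul_smul]
  refine HeightOneSpectrum.ext (Ideal.ext fun x => ?_)
  rw [G.mem_primeSMul_iff, mem_primeBelow, mem_primeBelow]
  have h1 : ((((QuotientGroup.mk σ : M.Gal)⁻¹ • x : 𝓞 M.F) : M.F) : Qbar) =
      σ⁻¹ ((x : M.F) : Qbar) := by
    rw [← QuotientGroup.mk_inv]
    exact level_mk_smul M σ⁻¹ (x : M.F)
  rw [h1]
  exact apply_mem_nonunits_iff hσA' _

/-- `Gal(M/L)` fixes a prime of `M` above `r`. -/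
theorem fixesPrimeAbove_relGal (hr : r ∉ S) :
    FixesPrimeAbove (auxLevel L r n) r (Level.relGal (le_auxLevel L r n)) := by
  obtain ⟨A, hA⟩ := Fermat.Agent.S54.exists_valuationSubring_liesOver (r : ℕ) r.2
  refine ⟨primeBelow (auxLevel L r n).F A (r : ℕ) r.2 hA,
    natCast_mem_primeBelow _ A (r : ℕ) r.2 hA, fun z hz => ?_⟩
  obtain ⟨σ, hσ, rfl⟩ := exists_inertia_eq L r n hr A hA z hz
  exact primeSMul_primeBelow r (auxLevel L r n) A hA σ hσ

end Aux

/-! ## The theorem -/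

/-- **RAM.** -/
theorem ram (p : ℕ) : RamSpec p := by
  intro hp S L k
  obtain ⟨r, hr, hgt, hmod⟩ := Nat.exists_prime_gt_modEq_one (k := p ^ k)
    (S.sup fun q : Nat.Primes => (q : ℕ)) (pow_ne_zero k hp.ne_zero)
  have hrS : (⟨r, hr⟩ : Nat.Primes) ∉ S := by
    intro hmem
    have := Finset.le_sup (f := fun q : Nat.Primes => (q : ℕ)) hmem
    exact absurd hgt (not_lt.2 this)
  have hdvd : p ^ k ∣ r - 1 := (Nat.modEq_iff_dvd' hr.one_lt.le).1 hmod.symm
  exact ⟨⟨r, hr⟩, hrS, auxLevel L ⟨r, hr⟩ (p ^ k), le_auxLevel L ⟨r, hr⟩ (p ^ k),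
    card_relGal L ⟨r, hr⟩ (p ^ k) hrS hdvd, fixesPrimeAbove_relGal L ⟨r, hr⟩ (p ^ k) hrS⟩

end Fermat.Agent.S55.G.Rec.TOW.H241
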